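/-
S20, package L1 (helper78), part 1: the Serre derivative `ϑ_k f = D f - (k/12) E₂ f` maps
modular forms of weight `k` on a finite-index subgroup of `SL(2, ℤ)` to modular forms of
weight `k + 2`.  (Mathlib has the slash-equivariance and holomorphy; the missing piece is
boundedness at the cusps, a Cauchy estimate.)
-/
import Mathlib

set_option autoImplicit false

namespace Fermat.Agent.S20.H78

open UpperHalfPlane ModularForm CongruenceSubgroup Filter Topology Matrix.SpecialLinearGroup
open scoped MatrixGroups Manifold ModularForm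
open Derivative

/-- Cauchy estimate: the normalized derivative of a holomorphic function on `ℍ` which is bounded
at `i∞` is bounded at `i∞`. -/
theorem isBoundedAtImInfty_normalizedDeriv {F : ℍ → ℂ} (hF : MDiff F)
    (hb : IsBoundedAtImInfty F) : IsBoundedAtImInfty (D F) := by
  rw [isBoundedAtImInfty_iff] at hb ⊢
  obtain ⟨M, A, hMA⟩ := hb
  refine ⟨‖(2 * (Real.pi : ℂ) * Complex.I)⁻¹‖ * M, max A 1 + 1, fun z hz => ?_⟩
  have hdiff : DifferentiableOn ℂ (F ∘ ofComplex) {w | 0 < w.im} :=
    UpperHalfPlane.mdifferentiable_iff.mp hF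
  have hball : ∀ w ∈ Metric.closedBall (z : ℂ) 1, max A 1 ≤ w.im := by
    intro w hw
    rw [Metric.mem_closedBall, Complex.dist_eq] at hw
    have h1 : |(w - (z : ℂ)).im| ≤ ‖w - (z : ℂ)‖ := Complex.abs_im_le_norm _
    have h2 : |w.im - z.im| ≤ 1 := by
      simpa using h1.trans hw
    have h3 := (abs_le.mp h2).1
    linarith
  have h1 : ‖deriv (F ∘ ofComplex) z‖ ≤ M / 1 := by
    apply Complex.norm_deriv_le_of_forall_mem_sphere_norm_le one_pos
    · refine DifferentiableOn.diffContOnCl_ball (U := {w : ℂ | 0 < w.im}) hdiff ?_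
      intro w hw
      have := hball w hw
      have h1 : (1 : ℝ) ≤ max A 1 := le_max_right _ _
      show 0 < w.im
      linarith
    · intro w hw
      have hw' := hball w (Metric.sphere_subset_closedBall hw)
      have h1 : (1 : ℝ) ≤ max A 1 := le_max_right _ _
      have him : 0 < w.im := by linarith
      have := hMA ⟨w, him⟩ (by
        show A ≤ w.im
        exact (le_max_left _ _).trans hw')
      simpa [Function.comp, ofComplex_apply_of_im_pos him] using this
  simp only [normalizedDerivOfComplex, norm_mul]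
  rw [div_one] at h1
  gcongr

/-- The Serre derivative of a holomorphic function bounded at `i∞` is bounded at `i∞`. -/
theorem isBoundedAtImInfty_serreDerivative {F : ℍ → ℂ} (k : ℂ) (hF : MDiff F)
    (hb : IsBoundedAtImInfty F) : IsBoundedAtImInfty (serreDerivative k F) := by
  have h1 : IsBoundedAtImInfty (D F) := isBoundedAtImInfty_normalizedDeriv hF hb
  have h2 : IsBoundedAtImInfty (fun z => k * 12⁻¹ * EisensteinSeries.E2 z * F z) := by
    have h3 : IsBoundedAtImInfty (fun _ : ℍ => k * 12⁻¹) :=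
      Filter.const_boundedAtFilter _ _
    exact (h3.mul EisensteinSeries.isBoundedAtImInfty_E2).mul hb
  have h4 := h1.add h2.neg
  have h5 : serreDerivative k F = D F + -(fun z => k * 12⁻¹ * EisensteinSeries.E2 z * F z) := by
    ext z
    simp [serreDerivative, sub_eq_add_neg]
  rw [h5]
  exact h4

/-- The Serre derivative as a map `M_k(Γ) → M_{k+2}(Γ)` for a finite-index subgroup `Γ` of
`SL(2, ℤ)`. -/
noncomputable def serreD {Γ : Subgroup SL(2, ℤ)} [Γ.FiniteIndex] {k : ℤ}
    (f : ModularForm (Γ : Subgroup (GL (Fin 2) ℝ)) k) :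
    ModularForm (Γ : Subgroup (GL (Fin 2) ℝ)) (k + 2) where
  toFun := serreDerivative k f
  slash_action_eq' γ hγ := by
    obtain ⟨γ', hγ', rfl⟩ := hγ
    have h : (f : ℍ → ℂ) ∣[k] γ' = f := f.slash_action_eq' (mapGL ℝ γ') ⟨γ', hγ', rfl⟩
    exact serreDerivative_slash_invariant f.holo' (γ := γ') h
  holo' := serreDerivative_mdifferentiable k f.holo'
  bdd_at_cusps' {c} hc := by
    have hc' : IsCusp c (mapGL ℝ).range :=
      (Subgroup.IsArithmetic.isCusp_iff_isCusp_SL2Z _).mp hc
    rw [OnePoint.isBoundedAt_iff_forall_SL2Z hc']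
    intro γ hγ
    have hb : IsBoundedAtImInfty ((f : ℍ → ℂ) ∣[k] γ) :=
      (OnePoint.isBoundedAt_iff_forall_SL2Z hc').mp (f.bdd_at_cusps' hc) γ hγ
    have hd : MDiff ((f : ℍ → ℂ) ∣[k] γ) := f.holo'.slash k _
    have key := isBoundedAtImInfty_serreDerivative (k : ℂ) hd hb
    have e : serreDerivative (k : ℂ) (f : ℍ → ℂ) ∣[k + 2] γ =
        serreDerivative (k : ℂ) ((f : ℍ → ℂ) ∣[k] γ) :=
      serreDerivative_slash_equivariant (k := k) (F := (f : ℍ → ℂ)) f.holo' (γ := γ)
    show IsBoundedAtImInfty (serreDerivative (k : ℂ) (f : ℍ → ℂ) ∣[k + 2] γ)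
    rw [e]
    exact key

@[simp]
theorem coe_serreD {Γ : Subgroup SL(2, ℤ)} [Γ.FiniteIndex] {k : ℤ}
    (f : ModularForm (Γ : Subgroup (GL (Fin 2) ℝ)) k) :
    (serreD f : ℍ → ℂ) = serreDerivative k f := rfl

end Fermat.Agent.S20.H78
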