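/-
S20, package L1 (helper78), part 2: modular forms on `Γ₀(N)` separate, at EVERY point `τ ∈ ℍ`,
the translates by `γ ∉ Γ₀(N)`:  there are `k` and `f ∈ M_k(Γ₀(N))` with `(f ∣[k] γ) τ ≠ f τ`.

Proof: otherwise every `u_f := f ∣[k] γ - f` vanishes at `τ`.  Since `u_{ϑ f} = ϑ u_f =
D u_f - (k/12) E₂ u_f` (Serre derivative), induction on `n` shows that every `u_f` vanishes to
order `≥ n` at `τ`, hence identically, contradicting the separating form `E₄(N z)` of
`Fermat.Agent.S23.H21`.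
-/
import Fermat.Agent.S20.H78.SerreD
import Fermat.Agent.S23.H21.SepForm

set_option autoImplicit false

namespace Fermat.Agent.S20.H78

open UpperHalfPlane ModularForm CongruenceSubgroup Filter Topology Matrix.SpecialLinearGroup
open scoped MatrixGroups Manifold ModularForm
open Derivative

/-- A holomorphic function on `ℍ`, extended by `ofComplex`, is analytic at every point of `ℍ`. -/
theorem analyticAt_comp_ofComplex {F : ℍ → ℂ} (hF : MDiff F) (τ : ℍ) :
    AnalyticAt ℂ (F ∘ ofComplex) (τ : ℂ) :=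
  (UpperHalfPlane.mdifferentiable_iff.mp hF).analyticAt
    (isOpen_upperHalfPlaneSet.mem_nhds τ.im_pos)

/-- If all differences `f ∣[k] γ - f` (over all weights `k` and all `f ∈ M_k(Γ)`) vanish at `τ`,
then they all vanish to order `≥ n` at `τ`, for every `n`. -/
theorem natCast_le_order_of_forall_eq {Γ : Subgroup SL(2, ℤ)} [Γ.FiniteIndex] (γ : SL(2, ℤ))
    (τ : ℍ)
    (h : ∀ (k : ℤ) (f : ModularForm (Γ : Subgroup (GL (Fin 2) ℝ)) k),
      ((f : ℍ → ℂ) ∣[k] γ) τ = f τ) (n : ℕ) :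
    ∀ (k : ℤ) (f : ModularForm (Γ : Subgroup (GL (Fin 2) ℝ)) k),
      (n : ℕ∞) ≤ analyticOrderAt ((((f : ℍ → ℂ) ∣[k] γ) - (f : ℍ → ℂ)) ∘ ofComplex) (τ : ℂ) := by
  induction n with
  | zero => intro k f; simp
  | succ n ih =>
    intro k f
    set u : ℍ → ℂ := ((f : ℍ → ℂ) ∣[k] γ) - (f : ℍ → ℂ) with hu
    have hfγ : MDiff ((f : ℍ → ℂ) ∣[k] γ) := f.holo'.slash k _
    have hud : MDiff u := hfγ.sub f.holo'
    have hU : AnalyticAt ℂ (u ∘ ofComplex) (τ : ℂ) := analyticAt_comp_ofComplex hud τ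
    have hU0 : (u ∘ ofComplex) (τ : ℂ) = 0 := by
      simp [hu, ofComplex_apply, h k f]
    push_cast
    rw [← analyticOrderAt_deriv_ge_iff hU hU0]
    have hser : serreDerivative k u =
        ((serreD f : ℍ → ℂ) ∣[k + 2] γ) - (serreD f : ℍ → ℂ) := by
      have e : serreDerivative (k : ℂ) (f : ℍ → ℂ) ∣[k + 2] γ =
          serreDerivative (k : ℂ) ((f : ℍ → ℂ) ∣[k] γ) :=
        serreDerivative_slash_equivariant (k := k) (F := (f : ℍ → ℂ)) f.holo' (γ := γ)
      have e' := serreDerivative_sub (k : ℂ) ((f : ℍ → ℂ) ∣[k] γ) (f : ℍ → ℂ) hfγ f.holo'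
      rw [coe_serreD, e]
      exact e'
    have ih1 := ih (k + 2) (serreD f)
    rw [← hser] at ih1
    have ih2 := ih k f
    have hS : AnalyticAt ℂ (serreDerivative k u ∘ ofComplex) (τ : ℂ) :=
      analyticAt_comp_ofComplex (serreDerivative_mdifferentiable k hud) τ
    have hE : AnalyticAt ℂ (EisensteinSeries.E2 ∘ ofComplex) (τ : ℂ) :=
      analyticAt_comp_ofComplex E2_mdifferentiable τ
    obtain ⟨g1, hg1, hg1e⟩ := (natCast_le_analyticOrderAt hS).mp ih1
    obtain ⟨g2, hg2, hg2e⟩ := (natCast_le_analyticOrderAt hU).mp ih2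
    have hev : deriv (u ∘ ofComplex) =ᶠ[𝓝 (τ : ℂ)] fun z =>
        (z - (τ : ℂ)) ^ n • ((2 * (Real.pi : ℂ) * Complex.I) *
          (g1 z + (k * 12⁻¹ * (EisensteinSeries.E2 ∘ ofComplex) z) * g2 z)) := by
      filter_upwards [isOpen_upperHalfPlaneSet.mem_nhds τ.im_pos, hg1e, hg2e] with z hz h1 h2
      have hpi : (2 * (Real.pi : ℂ) * Complex.I) ≠ 0 := by
        simp [Real.pi_ne_zero]
      have e1 : (serreDerivative k u ∘ ofComplex) z =
          (2 * (Real.pi : ℂ) * Complex.I)⁻¹ * deriv (u ∘ ofComplex) z -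
            k * 12⁻¹ * (EisensteinSeries.E2 ∘ ofComplex) z * (u ∘ ofComplex) z := by
        simp only [Function.comp_apply, serreDerivative_apply, normalizedDerivOfComplex,
          ofComplex_apply_of_im_pos hz]
      have e2 : deriv (u ∘ ofComplex) z = (2 * (Real.pi : ℂ) * Complex.I) *
          ((serreDerivative k u ∘ ofComplex) z +
            k * 12⁻¹ * (EisensteinSeries.E2 ∘ ofComplex) z * (u ∘ ofComplex) z) := by
        rw [e1, sub_add_cancel, ← mul_assoc, mul_inv_cancel₀ hpi, one_mul]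
      rw [e2, h1, h2]
      simp only [smul_eq_mul]
      ring
    have hder : AnalyticAt ℂ (deriv (u ∘ ofComplex)) (τ : ℂ) := hU.deriv
    rw [natCast_le_analyticOrderAt hder]
    refine ⟨_, ?_, hev⟩
    fun_prop

/-- **Pointwise separation.**  For every `τ ∈ ℍ` and every `γ ∈ SL(2, ℤ)` outside `Γ₀(N)` there
is a modular form `f` on `Γ₀(N)` (of some weight `k`) with `(f ∣[k] γ) τ ≠ f τ`. -/
theorem exists_form_slash_ne (N : ℕ) [NeZero N] (τ : ℍ) (γ : SL(2, ℤ)) (hγ : γ ∉ Gamma0 N) :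
    ∃ (k : ℤ) (f : ModularForm ((Gamma0 N : Subgroup SL(2, ℤ)) : Subgroup (GL (Fin 2) ℝ)) k),
      ((f : ℍ → ℂ) ∣[k] γ) τ ≠ f τ := by
  by_contra hcon
  push Not at hcon
  have hall := fun n => natCast_le_order_of_forall_eq γ τ hcon n 4 (S23.H21.sepForm N)
  set u : ℍ → ℂ := ((S23.H21.sepForm N : ℍ → ℂ) ∣[(4 : ℤ)] γ) - (S23.H21.sepForm N : ℍ → ℂ) with hu
  have hud : MDiff u := ((S23.H21.sepForm N).holo'.slash 4 _).sub (S23.H21.sepForm N).holo'
  have htop : analyticOrderAt (u ∘ ofComplex) (τ : ℂ) = ⊤ := ENat.eq_top_iff_forall_ge.mpr hall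
  rw [analyticOrderAt_eq_top] at htop
  have han : AnalyticOnNhd ℂ (u ∘ ofComplex) {w : ℂ | 0 < w.im} :=
    (UpperHalfPlane.mdifferentiable_iff.mp hud).analyticOnNhd isOpen_upperHalfPlaneSet
  have hzero := han.eqOn_zero_of_preconnected_of_eventuallyEq_zero
    (convex_halfSpace_im_gt 0).isPreconnected τ.im_pos htop
  apply S23.H21.sepForm_slash_ne N γ hγ
  ext z
  have h1 := hzero z.im_pos
  simp only [Function.comp_apply, ofComplex_apply, hu, Pi.sub_apply, Pi.zero_apply] at h1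
  exact sub_eq_zero.mp h1

end Fermat.Agent.S20.H78
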